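import Fermat.Agent.RIB.Main.NonEis
import Fermat.Agent.ML.Main.Ctx

/-!
# ML / Low / Main / NonEis : port of `RIB/Main/NonEis.lean` to `MCtx`

`MCtx.exists_nonEis` : for every finite set `S'` there is a prime `ℓ₀ ∉ S'` with `θ ℓ₀ ≢ ℓ₀ + 1 mod p`.
-/

set_option autoImplicit false
set_option linter.style.haveILetI false

noncomputable section

namespace Fermat.Agent.ML

open Fermat.Agent.RIB Fermat.Agent.RIB.NonEisAux
open Fermat.Agent.GAL Fermat.Agent.GAL.PC

local notation "Qbar" => AlgebraicClosure ℚ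
local notation "GQ" => (AlgebraicClosure ℚ ≃ₐ[ℚ] AlgebraicClosure ℚ)
local notation "M₂" => Matrix (Fin 2) (Fin 2)

variable {p : ℕ} [Fact p.Prime] {T : Finset ℕ} {θ : ℕ → ℤ} {rbar0 : GQ →* M₂ (ZMod p)}

/-- `θ` is not Eisenstein. -/
theorem MCtx.exists_nonEis (C : MCtx p T θ rbar0) (S' : Finset ℕ) :
    ∃ ℓ₀ : ℕ, ℓ₀.Prime ∧ ℓ₀ ∉ S' ∧ ¬ (p : ℤ) ∣ θ ℓ₀ - ((ℓ₀ : ℤ) + 1) := by
  classical
  haveI : NeZero p := ⟨(Fact.out : p.Prime).ne_zero⟩
  by_contra hcon
  push Not at hcon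
  -- `tr g = 1 + det g`
  have htr : ∀ g : GQ, (rbar0 g).trace = 1 + (rbar0 g).det := by
    intro g
    obtain ⟨F, hF, h₁⟩ := C.cont
    obtain ⟨r, A, τ, n, hr, hrS, hA, hτ, hg⟩ := genCheb F hF g (S' ∪ T)
    have hrS' : r ∉ S' := fun h => hrS (Finset.mem_union_left _ h)
    have hrT : r ∉ T := fun h => hrS (Finset.mem_union_right _ h)
    set η : GQ := (τ ^ n)⁻¹ * g with hη
    have hgη : g = τ ^ n * η := by rw [hη, mul_inv_cancel_left]
    have hη1 : rbar0 η = 1 := h₁ η fun y hy => by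
      rw [hη, AlgEquiv.mul_apply, hg y hy]
      exact (τ ^ n).symm_apply_apply y
    obtain ⟨ht, hd⟩ := C.frob r hr hrT A hA τ hτ
    have h2 : ((θ r : ℤ) : ZMod p) = (r : ZMod p) + 1 := by
      have h3 := (ZMod.intCast_zmod_eq_zero_iff_dvd _ p).2 (hcon r hr hrS')
      push_cast at h3
      linear_combination h3
    have h4 : (rbar0 τ - 1).det = 0 := by
      rw [det_sub_one, ht, hd, h2]; ring
    have h5 : (rbar0 g - 1).det = 0 := by
      rw [hgη, map_mul, hη1, mul_one, map_pow]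
      exact det_pow_sub_one _ h4 n
    rw [det_sub_one] at h5
    linear_combination -h5
  obtain ⟨σ₀, τ₀, u, -, hnf⟩ := C.nf
  have hp2 : (2 : ZMod p) ≠ 0 := by
    intro h
    have h' : ((2 : ℕ) : ZMod p) = 0 := by exact_mod_cast h
    rw [ZMod.natCast_eq_zero_iff] at h'
    exact C.hp2 ((Nat.prime_dvd_prime_iff_eq Fact.out Nat.prime_two).1 h')
  have hdc : (rbar0 complexConjugation).det = -1 := by
    rw [C.det]
    exact cycloChar_complexConjugation p
  -- the upper left entry is `1`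
  have h00 : ∀ g : GQ, (rbar0 g) 0 0 = 1 := by
    intro g
    have h1 : (rbar0 g) 0 0 =
        TW.TR.aF (fun g => (rbar0 g).trace) (2 : ZMod p)⁻¹ complexConjugation g := by
      conv_lhs => rw [hnf g]
      rfl
    rw [h1, TW.TR.aF_eq, htr, htr, map_mul, Matrix.det_mul, hdc]
    field_simp
    ring
  have hmul : ∀ g h : GQ, (rbar0 g) 0 1 * (rbar0 h) 1 0 = 0 := by
    intro g h
    have h1 := h00 (g * h)
    rw [map_mul, Matrix.mul_apply, Fin.sum_univ_two, h00, h00] at h1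
    linear_combination h1
  by_cases hb : ∃ g : GQ, (rbar0 g) 0 1 ≠ 0
  · obtain ⟨g, hg⟩ := hb
    have hc : ∀ h : GQ, (rbar0 h) 1 0 = 0 := fun h =>
      (mul_eq_zero.1 (hmul g h)).resolve_left hg
    obtain ⟨σ, hσ⟩ := C.noLine ![1, 0] (by
      intro h
      have := congrFun h 0
      simp at this)
    refine hσ 1 ?_
    funext i
    fin_cases i
    · simp [Matrix.mulVec, dotProduct, Fin.sum_univ_two, h00]
    · simp [Matrix.mulVec, dotProduct, Fin.sum_univ_two, hc]
  · push Not at hb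
    obtain ⟨σ, hσ⟩ := C.noLine ![0, 1] (by
      intro h
      have := congrFun h 1
      simp at this)
    refine hσ ((rbar0 σ) 1 1) ?_
    funext i
    fin_cases i
    · simp [Matrix.mulVec, dotProduct, Fin.sum_univ_two, hb]
    · simp [Matrix.mulVec, dotProduct, Fin.sum_univ_two]
end Fermat.Agent.ML
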